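import Fermat.Agent.S31.Reduction
import Fermat.Agent.S31.Dense
import Fermat.Agent.S29.Eigen
import Fermat.Agent.Lib.Frobenius

/-!
# Old-killers (helper35), part 3: strong multiplicity one for eigenvalues

Two normalised eigenforms of levels `N₁`, `N₂` whose eigenvalues agree outside a finite set of primes
have the same eigenvalue at every prime `ℓ₀ ∤ N₁ N₂`.  Input: the Hecke trace congruences
(`Fermat.Agent.S31.HeckeTraceCongruence`, a consequence of the universal towers) at the two levels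
for an auxiliary prime `p ≠ ℓ₀`, and the density of powers of Frobenius lifts.
-/

set_option autoImplicit false

namespace Fermat.Agent.Lib.NewKill

open CuspForm ModularFormClass CongruenceSubgroup Fermat.Agent.S31 Polynomial

/-- An algebraic integer which is divisible by all powers of `p` vanishes. -/
theorem eq_zero_of_forall_exists_pow_mul {p : ℕ} (hp : 1 < p) (x : ℂ)
    (hx : ∀ n : ℕ, ∃ y : ℂ, IsIntegral ℤ y ∧ x = (p : ℂ) ^ n * y) : x = 0 := by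
  by_contra hx0
  have hint : IsIntegral ℤ x := by
    obtain ⟨y, hy, h⟩ := hx 0
    rw [h, pow_zero, one_mul]
    exact hy
  set P := minpoly ℤ x with hP
  have hc0 : P.coeff 0 ≠ 0 := by
    have h1 := minpoly.coeff_zero_ne_zero (A := ℚ) hint.tower_top hx0
    rw [minpoly.isIntegrallyClosed_eq_field_fractions' ℚ hint, coeff_map] at h1
    intro h
    rw [← hP, h] at h1
    simp at h1
  have hroot : aeval x P = 0 := minpoly.aeval ℤ x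
  have hR : IsIntegral ℤ (aeval x P.divX) := by
    have : aeval x P.divX ∈ Algebra.adjoin ℤ {x} := by
      rw [Algebra.adjoin_singleton_eq_range_aeval]
      exact ⟨_, rfl⟩
    exact IsIntegral.of_mem_of_fg _ hint.fg_adjoin_singleton _ this
  have hc : ((P.coeff 0 : ℤ) : ℂ) = - (x * aeval x P.divX) := by
    have h1 := congrArg (aeval x) (divX_mul_X_add P)
    rw [hroot, map_add, map_mul, aeval_X, aeval_C] at h1
    have h2 : algebraMap ℤ ℂ (P.coeff 0) = ((P.coeff 0 : ℤ) : ℂ) := rfl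
    rw [h2] at h1
    linear_combination h1
  have hdvd : ∀ n : ℕ, ((p : ℤ) ^ n) ∣ P.coeff 0 := by
    intro n
    obtain ⟨y, hy, h⟩ := hx n
    have hz : IsIntegral ℤ (-(y * aeval x P.divX)) := (hy.mul hR).neg
    have hp0 : (p : ℂ) ^ n ≠ 0 := pow_ne_zero _ (Nat.cast_ne_zero.mpr (by omega))
    have e : -(y * aeval x P.divX) = algebraMap ℚ ℂ (((P.coeff 0 : ℤ) : ℚ) / (p : ℚ) ^ n) := by
      rw [map_div₀, map_pow, map_natCast, map_intCast, hc, eq_div_iff hp0]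
      generalize aeval x P.divX = r
      rw [h]
      ring
    rw [e, isIntegral_algebraMap_iff (algebraMap ℚ ℂ).injective,
      IsIntegrallyClosed.isIntegral_iff] at hz
    obtain ⟨m, hm⟩ := hz
    refine ⟨m, ?_⟩
    have hp0' : (p : ℚ) ^ n ≠ 0 := pow_ne_zero _ (Nat.cast_ne_zero.mpr (by omega))
    rw [eq_div_iff hp0'] at hm
    have h3 : ((m * (p : ℤ) ^ n : ℤ) : ℚ) = ((P.coeff 0 : ℤ) : ℚ) := by
      push_cast
      exact hm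
    have h4 := Int.cast_injective h3
    rw [← h4, mul_comm]
  have h1 := hdvd (P.coeff 0).natAbs
  have h2 : p ^ (P.coeff 0).natAbs ∣ (P.coeff 0).natAbs := by
    have := Int.natAbs_dvd_natAbs.mpr h1
    rwa [Int.natAbs_pow, Int.natAbs_natCast] at this
  have h3 := Nat.le_of_dvd (Int.natAbs_pos.mpr hc0) h2
  exact absurd h3 (not_le.mpr (Nat.lt_pow_self hp))

/-- **Strong multiplicity one for eigenvalues.** -/
theorem qCoeff_eq_of_forall_notMem {N₁ N₂ : ℕ} [NeZero N₁] [NeZero N₂]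
    {f₁ : CuspForm (Gamma0 N₁) 2} {f₂ : CuspForm (Gamma0 N₂) 2}
    (h₁ : f₁.IsNormalizedEigenform) (h₂ : f₂.IsNormalizedEigenform) (S : Finset ℕ)
    (hS : ∀ ℓ : ℕ, ℓ.Prime → ℓ ∉ S → qCoeff ⇑f₁ ℓ = qCoeff ⇑f₂ ℓ)
    (p : ℕ) (hp : p.Prime) (S₁ : Finset ℕ)
    (hN₁ : ∀ q : ℕ, q.Prime → q ∣ N₁ → q ∈ S₁) (hN₂ : ∀ q : ℕ, q.Prime → q ∣ N₂ → q ∈ S₁)
    (hc₁ : HeckeTraceCongruence p N₁ S₁) (hc₂ : HeckeTraceCongruence p N₂ S₁)
    {ℓ₀ : ℕ} (hℓ₀ : ℓ₀.Prime) (hℓ₀S : ℓ₀ ∉ S₁) :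
    qCoeff ⇑f₁ ℓ₀ = qCoeff ⇑f₂ ℓ₀ := by
  classical
  rw [← sub_eq_zero]
  apply eq_zero_of_forall_exists_pow_mul hp.one_lt
  intro n
  obtain ⟨A₀, σ₀, hA₀, hσ₀⟩ := Lib.Frobenius.exists_liesOverPrime_isFrobeniusAt ℓ₀ hℓ₀
  obtain ⟨L₁, hL₁fin, hL₁⟩ := hc₁ n
  obtain ⟨L₂, hL₂fin, hL₂⟩ := hc₂ n
  have hLfin : FiniteDimensional ℚ (L₁ ⊔ L₂ : IntermediateField ℚ (AlgebraicClosure ℚ)) :=
    IntermediateField.finiteDimensional_sup L₁ L₂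
  obtain ⟨ℓ, A, σ, w, hℓ, hℓS, hA, hσ, hw⟩ := frobPowDense (L₁ ⊔ L₂) hLfin (S ∪ S₁) σ₀
  have hℓS0 : ℓ ∉ S := fun h => hℓS (Finset.mem_union_left _ h)
  have hℓS1 : ℓ ∉ S₁ := fun h => hℓS (Finset.mem_union_right _ h)
  have hℓS1' : ℓ ∉ (↑S₁ : Set ℕ) := fun h => hℓS1 (Finset.mem_coe.mp h)
  have hℓ₀S' : ℓ₀ ∉ (↑S₁ : Set ℕ) := fun h => hℓ₀S (Finset.mem_coe.mp h)
  have hle₁ : L₁ ≤ L₁ ⊔ L₂ := le_sup_left
  have hle₂ : L₂ ≤ L₁ ⊔ L₂ := le_sup_right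
  have hag : ∀ x ∈ L₁ ⊔ L₂, (σ ^ w) x = ((1 : Gal) * σ₀ ^ 1) x := by
    intro x hx
    rw [one_mul, pow_one]
    exact hw x hx
  obtain ⟨b₁, hb₁⟩ := hL₁ ℓ₀ hℓ₀ hℓ₀S A₀ hA₀ 1 (Subgroup.one_mem _) ℓ ℓ₀ hℓ
    (fun h => hℓS1 (hN₁ ℓ hℓ h)) hℓS1' hℓ₀ (fun h => hℓ₀S (hN₁ ℓ₀ hℓ₀ h)) hℓ₀S' A A₀ σ σ₀ w 1
    hA hσ hA₀ hσ₀ (fun x hx => hag x (hle₁ hx))
  obtain ⟨b₂, hb₂⟩ := hL₂ ℓ₀ hℓ₀ hℓ₀S A₀ hA₀ 1 (Subgroup.one_mem _) ℓ ℓ₀ hℓ
    (fun h => hℓS1 (hN₂ ℓ hℓ h)) hℓS1' hℓ₀ (fun h => hℓ₀S (hN₂ ℓ₀ hℓ₀ h)) hℓ₀S' A A₀ σ σ₀ w 1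
    hA hσ hA₀ hσ₀ (fun x hx => hag x (hle₂ hx))
  have e₁ := congrArg (S29.Eigen.eigenChar h₁ (↑S₁ : Set ℕ)) hb₁
  have e₂ := congrArg (S29.Eigen.eigenChar h₂ (↑S₁ : Set ℕ)) hb₂
  rw [map_sub, map_lucas, map_lucas, lucas_one, S29.Eigen.eigenChar_T, S29.Eigen.eigenChar_T,
    map_mul, map_pow, map_natCast, map_natCast] at e₁ e₂
  refine ⟨S29.Eigen.eigenChar h₂ (↑S₁ : Set ℕ) b₂ - S29.Eigen.eigenChar h₁ (↑S₁ : Set ℕ) b₁,
    (S29.Eigen.isIntegral_eigenChar h₂ _ b₂).sub (S29.Eigen.isIntegral_eigenChar h₁ _ b₁), ?_⟩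
  rw [hS ℓ hℓ hℓS0] at e₁
  linear_combination e₂ - e₁

end Fermat.Agent.Lib.NewKill
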