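import Fermat.Agent.Lib.NewKill.Occurs
import Fermat.Agent.Lib.NewKill.StrongMult
import Fermat.Prelude.Def_CuspForm_Newforms

/-!
# Old-killers (helper35): the main theorem

Let `g` be a newform of level `M` in the sense of the prelude (its system of eigenvalues at ALL primes
not dividing `M` does not occur at a proper divisor of `M`), `S` a finite set of primes containing the
primes dividing `M`, and `N` a proper divisor of `M`.  Then there is a polynomial `Q ∈ ℤ[X_ℓ]` such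
that `Q(T) = 0` in the Hecke algebra of level `N` away from `S`, while the eigensystem of `g` does not
vanish at `Q`.

Input: the Hecke trace congruences at all levels and all primes (a consequence of the universal
towers of the cluster GAL), used for strong multiplicity one.
-/

set_option autoImplicit false

namespace Fermat.Agent.Lib.NewKill

open CuspForm ModularFormClass CongruenceSubgroup Fermat.Agent.S30 Fermat.Agent.S31
  Fermat.Agent.GAL

/-- The Hecke trace congruences at all levels and all primes. -/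
def AllTraceCongruences : Prop :=
  ∀ (N : ℕ) [NeZero N] (p : ℕ) [Fact p.Prime] (S : Finset ℕ), p ∈ S →
    (∀ q : ℕ, q.Prime → q ∣ N → q ∈ S) → HeckeTraceCongruence p N S

theorem map_aeval_heckeFun {N : ℕ} [NeZero N] {S : Finset ℕ} {O : Type*} [CommRing O]
    (χ : heckeAlgebra N 2 (↑S : Set ℕ) →+* O) (P : HA) :
    χ (MvPolynomial.aeval (heckeFun N S) P) =
      MvPolynomial.aeval (fun ℓ => χ (heckeFun N S ℓ)) P := by
  induction P using MvPolynomial.induction_on with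
  | C a => simp
  | add P Q hP hQ => rw [map_add, map_add, hP, hQ, map_add]
  | mul_X P ℓ hP => rw [map_mul, map_mul, hP, MvPolynomial.aeval_X, map_mul, MvPolynomial.aeval_X]

/-- **Existence of old-killers.** -/
theorem exists_oldKiller (hcong : AllTraceCongruences) {M : ℕ} [NeZero M]
    {g : CuspForm (Gamma0 M) 2} (hg : g.IsNewform) (S : Finset ℕ)
    (chig : heckeAlgebra M 2 (↑S : Set ℕ) →+* ℂ)
    (hchig : ∀ (ℓ : ℕ) (hℓ : ℓ.Prime) (hℓM : ¬ ℓ ∣ M) (hℓS : ℓ ∉ (↑S : Set ℕ)),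
      chig (heckeAlgebra.T hℓ hℓM hℓS) = qCoeff g ℓ)
    (hMS : ∀ q : ℕ, q.Prime → q ∣ M → q ∈ S)
    (N : ℕ) [NeZero N] (hNM : N ∣ M) (hne : N ≠ M) :
    ∃ Q : HA, MvPolynomial.aeval (heckeFun N S) Q = 0 ∧
      chig (MvPolynomial.aeval (heckeFun M S) Q) ≠ 0 := by
  classical
  by_contra hcon
  push Not at hcon
  obtain ⟨f, hf, hfℓ⟩ := exists_eigenform_of_factor (N := N) (S := S)
    (fun ℓ => chig (heckeFun M S ℓ)) (fun P hP => by
      rw [← map_aeval_heckeFun]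
      exact hcon P hP)
  have hS : ∀ ℓ : ℕ, ℓ.Prime → ℓ ∉ S → qCoeff ⇑f ℓ = qCoeff ⇑g ℓ := by
    intro ℓ hℓ hℓS
    have hℓM : ¬ ℓ ∣ M := fun h => hℓS (hMS ℓ hℓ h)
    have hℓN : ¬ ℓ ∣ N := fun h => hℓM (h.trans hNM)
    have hℓS' : ℓ ∉ (↑S : Set ℕ) := fun h => hℓS (Finset.mem_coe.mp h)
    rw [hfℓ ℓ hℓ hℓN hℓS, heckeFun_eq hℓ hℓM hℓS', hchig]
  refine hg.2 N hNM hne ⟨f, hf, fun ℓ₀ hℓ₀ hℓ₀M => ?_⟩
  -- an auxiliary prime
  obtain ⟨p, hp, hpℓ⟩ : ∃ p : ℕ, p.Prime ∧ p ≠ ℓ₀ := by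
    by_cases h : ℓ₀ = 2
    · exact ⟨3, Nat.prime_three, by omega⟩
    · exact ⟨2, Nat.prime_two, fun h' => h h'.symm⟩
  have : Fact p.Prime := ⟨hp⟩
  set S₁ : Finset ℕ := M.primeFactors ∪ {p} with hS₁
  have hpS₁ : p ∈ S₁ := Finset.mem_union_right _ (Finset.mem_singleton_self p)
  have hM₁ : ∀ q : ℕ, q.Prime → q ∣ M → q ∈ S₁ := fun q hq hqM =>
    Finset.mem_union_left _ (Nat.mem_primeFactors.mpr ⟨hq, hqM, NeZero.ne M⟩)
  have hN₁ : ∀ q : ℕ, q.Prime → q ∣ N → q ∈ S₁ := fun q hq hqN => hM₁ q hq (hqN.trans hNM)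
  have hℓ₀S₁ : ℓ₀ ∉ S₁ := by
    intro h
    rcases Finset.mem_union.mp h with h | h
    · exact hℓ₀M (Nat.dvd_of_mem_primeFactors h)
    · exact hpℓ (Finset.mem_singleton.mp h).symm
  exact qCoeff_eq_of_forall_notMem hf hg.1 S hS p hp S₁ hN₁ hM₁
    (hcong N p S₁ hpS₁ hN₁) (hcong M p S₁ hpS₁ hM₁) hℓ₀ hℓ₀S₁

end Fermat.Agent.Lib.NewKill
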