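import Mathlib

/-!
# Old-killers (helper35), part 1: abstract linear algebra

* `linearIndependent_of_int_valued` : a `ℤ`-linearly independent family of complex valued functions
  with integer values is `ℂ`-linearly independent;
* `exists_eigenvector_of_algHom` : a character of a finite dimensional commutative `ℂ`-algebra acting
  faithfully on a finite dimensional space occurs as an eigensystem;
* `exists_eigenvector_of_ringHom` : the same for a ring `A`, free of finite rank over `ℤ`, whose
  `ℤ`-bases stay independent over `ℂ`.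
-/

set_option autoImplicit false

namespace Fermat.Agent.Lib.NewKill

open scoped TensorProduct

/-- `ℤ`-independent integer valued functions are `ℂ`-independent. -/
theorem linearIndependent_intCast {ι J : Type*} (u : ι → J → ℤ) (hu : LinearIndependent ℤ u) :
    LinearIndependent ℂ (fun i j => ((u i j : ℤ) : ℂ)) := by
  classical
  let j : (J → ℤ) →ₗ[ℤ] (J → ℚ) :=
    { toFun := fun φ x => ((φ x : ℤ) : ℚ)
      map_add' := fun φ ψ => by funext x; simp
      map_smul' := fun m φ => by funext x; simp }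
  have hj : LinearMap.ker j = ⊥ := by
    rw [LinearMap.ker_eq_bot']
    intro φ hφ
    funext x
    have := congrFun hφ x
    simpa [j] using this
  have h1 : LinearIndependent ℤ (fun i => j (u i)) := hu.map' j hj
  have h2 : LinearIndependent ℚ (fun i => j (u i)) :=
    (LinearIndependent.iff_fractionRing ℤ ℚ).mp h1
  rw [linearIndependent_iff']
  intro s c hc i hi
  rw [← Module.forall_dual_apply_eq_zero_iff ℚ (c i)]
  intro ℓ
  have h3 : ∑ i ∈ s, ℓ (c i) • j (u i) = 0 := by
    funext x
    have h4 := congrArg (fun φ : J → ℂ => ℓ (φ x)) hc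
    simp only [Finset.sum_apply, map_sum, Pi.zero_apply, map_zero] at h4
    rw [Finset.sum_apply, Pi.zero_apply, ← h4]
    refine Finset.sum_congr rfl fun i _ => ?_
    have h5 : (c i • fun j => ((u i j : ℤ) : ℂ)) x = ((u i x : ℤ) : ℚ) • c i := by
      show c i • ((u i x : ℤ) : ℂ) = _
      rw [smul_eq_mul, mul_comm, Rat.smul_def]
      simp
    rw [h5, map_smul]
    simp [j, mul_comm]
  exact linearIndependent_iff'.mp h2 s (fun i => ℓ (c i)) h3 i hi

/-- A `ℤ`-independent family of complex valued functions with integer values is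
`ℂ`-independent. -/
theorem linearIndependent_of_int_valued {ι J : Type*} (w : ι → J → ℂ)
    (hint : ∀ i j, ∃ m : ℤ, w i j = (m : ℂ)) (hw : LinearIndependent ℤ w) :
    LinearIndependent ℂ w := by
  choose u hu using hint
  have hwu : w = fun i j => ((u i j : ℤ) : ℂ) := by
    funext i j
    exact hu i j
  let c : (J → ℤ) →ₗ[ℤ] (J → ℂ) :=
    { toFun := fun φ x => ((φ x : ℤ) : ℂ)
      map_add' := fun φ ψ => by funext x; simp
      map_smul' := fun m φ => by funext x; simp }
  have h1 : LinearIndependent ℤ (c ∘ u) := by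
    have : c ∘ u = w := by rw [hwu]; rfl
    rw [this]
    exact hw
  rw [hwu]
  exact linearIndependent_intCast u (LinearIndependent.of_comp c h1)

/-- A character of a finite dimensional commutative `ℂ`-algebra acting faithfully on a finite
dimensional vector space occurs as an eigensystem. -/
theorem exists_eigenvector_of_algHom {V : Type*} [AddCommGroup V] [Module ℂ V]
    [FiniteDimensional ℂ V] {R : Type*} [CommRing R] [Algebra ℂ R] [Module.Finite ℂ R]
    (Φ : R →ₐ[ℂ] Module.End ℂ V) (hΦ : Function.Injective Φ) (Ψ : R →ₐ[ℂ] ℂ) :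
    ∃ v : V, v ≠ 0 ∧ ∀ x, Φ x v = Ψ x • v := by
  let _ : Module R V := Module.compHom V Φ.toRingHom
  have hsmul : ∀ (x : R) (v : V), x • v = Φ x v := fun _ _ => rfl
  have : IsScalarTower ℂ R V := ⟨fun c x v => by rw [hsmul, hsmul, map_smul]; rfl⟩
  have : IsArtinianRing R := IsArtinianRing.of_finite ℂ R
  have : IsNoetherianRing R := inferInstance
  have : Module.Finite R V := Module.Finite.of_restrictScalars_finite ℂ R V
  let 𝔫 : Ideal R := RingHom.ker Ψ.toRingHom
  have h𝔫prime : 𝔫.IsPrime := RingHom.ker_isPrime _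
  have hann : Module.annihilator R V = ⊥ := by
    rw [eq_bot_iff]
    intro b hb
    rw [Module.mem_annihilator] at hb
    rw [Ideal.mem_bot]
    apply hΦ
    rw [map_zero]
    apply LinearMap.ext
    intro v
    exact hb v
  have hmin : 𝔫 ∈ (Module.annihilator R V).minimalPrimes := by
    rw [hann]
    refine ⟨⟨h𝔫prime, bot_le⟩, ?_⟩
    rintro 𝔮 ⟨h𝔮, -⟩ hle
    have : 𝔮.IsMaximal := IsArtinianRing.isMaximal_of_isPrime 𝔮
    exact (this.eq_of_le h𝔫prime.ne_top hle).ge
  have hass : IsAssociatedPrime 𝔫 V :=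
    Module.associatedPrimes.minimalPrimes_annihilator_subset_associatedPrimes R V hmin
  obtain ⟨-, v, hv⟩ := isAssociatedPrime_iff.mp hass
  have hv0 : v ≠ 0 := by
    rintro rfl
    apply h𝔫prime.ne_top
    rw [hv, Ideal.eq_top_iff_one, Submodule.mem_colon_singleton]
    simp
  have hkill : ∀ b ∈ 𝔫, b • v = 0 := by
    intro b hb
    rw [hv, Submodule.mem_colon_singleton, Submodule.mem_bot] at hb
    exact hb
  refine ⟨v, hv0, fun x => ?_⟩
  have hx : x - algebraMap ℂ R (Ψ x) ∈ 𝔫 := by
    show Ψ (x - algebraMap ℂ R (Ψ x)) = 0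
    rw [map_sub, AlgHom.commutes]
    simp
  have h1 := hkill _ hx
  rw [hsmul, map_sub, AlgHom.commutes, LinearMap.sub_apply, sub_eq_zero] at h1
  rw [h1]
  rfl

/-- A character of a commutative ring `A`, free of finite rank over `ℤ`, acting on a finite
dimensional complex vector space in such a way that `ℤ`-bases stay independent over `ℂ`, occurs as
an eigensystem. -/
theorem exists_eigenvector_of_ringHom {V : Type*} [AddCommGroup V] [Module ℂ V]
    [FiniteDimensional ℂ V] {A : Type*} [CommRing A] [Module.Finite ℤ A] [Module.Free ℤ A]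
    (φ : A →+* Module.End ℂ V)
    (hLI : LinearIndependent ℂ (fun i => φ (Module.Free.chooseBasis ℤ A i)))
    (χ : A →+* ℂ) : ∃ v : V, v ≠ 0 ∧ ∀ t, φ t v = χ t • v := by
  let b := Module.Free.chooseBasis ℤ A
  have hc1 : ∀ (x : ℂ) (y : A),
      Commute ((Algebra.ofId ℂ (Module.End ℂ V)) x) (φ.toIntAlgHom y) :=
    fun c t => Algebra.commutes c (φ t)
  have hc2 : ∀ (x : ℂ) (y : A), Commute ((Algebra.ofId ℂ ℂ) x) (χ.toIntAlgHom y) :=
    fun c t => Commute.all _ _
  let Φ : (ℂ ⊗[ℤ] A) →ₐ[ℂ] Module.End ℂ V :=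
    Algebra.TensorProduct.lift (Algebra.ofId ℂ (Module.End ℂ V)) φ.toIntAlgHom hc1
  let Ψ : (ℂ ⊗[ℤ] A) →ₐ[ℂ] ℂ :=
    Algebra.TensorProduct.lift (Algebra.ofId ℂ ℂ) χ.toIntAlgHom hc2
  have hΦ1 : ∀ t : A, Φ (1 ⊗ₜ t) = φ t := by
    intro t
    show Algebra.TensorProduct.lift (Algebra.ofId ℂ (Module.End ℂ V)) φ.toIntAlgHom hc1 (1 ⊗ₜ t) = _
    rw [Algebra.TensorProduct.lift_tmul, map_one, one_mul]
    rfl
  have hΨ1 : ∀ t : A, Ψ (1 ⊗ₜ t) = χ t := by
    intro t
    show Algebra.TensorProduct.lift (Algebra.ofId ℂ ℂ) χ.toIntAlgHom hc2 (1 ⊗ₜ t) = _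
    rw [Algebra.TensorProduct.lift_tmul, map_one, one_mul]
    rfl
  have hΦ : Function.Injective Φ := by
    let B := Algebra.TensorProduct.basis ℂ b
    have h1 : LinearIndependent ℂ (fun i => Φ.toLinearMap (B i)) := by
      have : (fun i => Φ.toLinearMap (B i)) = fun i => φ (b i) := by
        funext i
        rw [Algebra.TensorProduct.basis_apply]
        exact hΦ1 _
      rw [this]
      exact hLI
    have h2 : LinearMap.ker Φ.toLinearMap = ⊥ := by
      rw [LinearMap.ker_eq_bot']
      intro x hx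
      rw [← B.linearCombination_repr x, Finsupp.linearCombination_apply, map_finsuppSum] at hx
      simp only [map_smul] at hx
      have h3 := linearIndependent_iff.mp h1 (B.repr x) (by
        rw [Finsupp.linearCombination_apply]
        exact hx)
      exact B.repr.map_eq_zero_iff.mp h3
    exact LinearMap.ker_eq_bot.mp h2
  obtain ⟨v, hv0, hv⟩ := exists_eigenvector_of_algHom Φ hΦ Ψ
  refine ⟨v, hv0, fun t => ?_⟩
  rw [← hΦ1, ← hΨ1]
  exact hv _

end Fermat.Agent.Lib.NewKill
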