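import Fermat.Agent.Lib.NewKill.Eigen
import Fermat.Agent.S49.Eigenform
import Fermat.Agent.S49.CommonEigen
import Fermat.Agent.S23.Wire
import Fermat.Agent.S22
import Fermat.Agent.GAL.UTower

/-!
# Old-killers (helper35), part 2: an eigensystem which factors through level `N` occurs at level `N`

If the evaluation `ℤ[X_ℓ] → ℂ`, `X_ℓ ↦ a ℓ`, kills every polynomial `P` with `P(T) = 0` on
`S₂(Γ₀(N))`, then there is a normalised eigenform `f` of level `N` with `a_ℓ(f) = a ℓ` for all
primes `ℓ ∤ N` outside `S`.  The integral structure of `S₂(Γ₀(N))` (S23) is used to pass from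
`ℤ`-coefficients to `ℂ`-coefficients.
-/

set_option autoImplicit false

namespace Fermat.Agent.Lib.NewKill

open CuspForm ModularFormClass CongruenceSubgroup Fermat.Agent.S30 Fermat.Agent.GAL

variable (N : ℕ) [NeZero N]

/-- The coordinates `a_n(t f)`, `f` in the integral lattice, of an endomorphism `t`. -/
noncomputable def coords :
    Module.End ℂ (CuspForm (Gamma0 N) 2) →ₗ[ℂ] (intLattice N 2 × ℕ → ℂ) where
  toFun t x := qCoeff ⇑(t (x.1 : CuspForm (Gamma0 N) 2)) x.2
  map_add' s t := by
    funext x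
    exact S49.qCoeff_add _ _ _
  map_smul' c t := by
    funext x
    exact S49.qCoeff_smul _ _ _

theorem coords_injective : Function.Injective (coords N) := by
  intro s t h
  apply LinearMap.ext_on (S23.Wire.hasIntegralStructure N 2)
  intro f hf
  apply S49.ext_qCoeff
  intro n
  exact congrFun h (⟨f, hf⟩, n)

variable (S : Finset ℕ)

/-- The evaluation `ℤ[X_ℓ] → 𝕋`. -/
noncomputable abbrev ev : HA →ₐ[ℤ] heckeAlgebra N 2 (↑S : Set ℕ) :=
  MvPolynomial.aeval (heckeFun N S)

/-- The action of the image of `ℤ[X_ℓ]` on cusp forms. -/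
noncomputable def act : (ev N S).range →+* Module.End ℂ (CuspForm (Gamma0 N) 2) :=
  (heckeAlgebra N 2 (↑S : Set ℕ)).val.toRingHom.comp (ev N S).range.val.toRingHom

theorem act_apply (t : (ev N S).range) :
    act N S t = ((t : heckeAlgebra N 2 (↑S : Set ℕ)) : Module.End ℂ (CuspForm (Gamma0 N) 2)) := rfl

theorem act_injective : Function.Injective (act N S) := by
  intro s t h
  exact Subtype.ext (Subtype.ext h)

theorem finite_range : Module.Finite ℤ (ev N S).range := by
  have : Module.Finite ℤ (heckeAlgebra N 2 (↑S : Set ℕ)) := S22.result N 2 _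
  exact Module.Finite.of_injective (ev N S).range.val.toLinearMap Subtype.val_injective

theorem free_range : Module.Free ℤ (ev N S).range := by
  have := finite_range N S
  have : IsAddTorsionFree (ev N S).range :=
    Function.Injective.isAddTorsionFree (ev N S).range.val.toLinearMap.toAddMonoidHom
      Subtype.val_injective
  exact Module.free_of_finite_type_torsion_free'

/-- `ℤ`-independent elements of the Hecke algebra are `ℂ`-independent operators. -/
theorem linearIndependent_act {ι : Type*} (b : ι → (ev N S).range) (hb : LinearIndependent ℤ b) :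
    LinearIndependent ℂ (fun i => act N S (b i)) := by
  apply LinearIndependent.of_comp (coords N)
  apply linearIndependent_of_int_valued
  · intro i x
    have h1 : (act N S (b i)) (x.1 : CuspForm (Gamma0 N) 2) ∈ intLattice N 2 :=
      mem_intLattice_of_mem_heckeAlgebra one_le_two
        ((b i : heckeAlgebra N 2 (↑S : Set ℕ))).2 x.1.2
    exact (S49.mem_intLattice_iff _).mp h1 x.2
  · let F : (ev N S).range →ₗ[ℤ] (intLattice N 2 × ℕ → ℂ) :=
      ((coords N).restrictScalars ℤ).comp (act N S).toIntAlgHom.toLinearMap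
    have hF : LinearMap.ker F = ⊥ := by
      rw [LinearMap.ker_eq_bot]
      exact (coords_injective N).comp (act_injective N S)
    exact hb.map' F hF

variable {N S}

/-- **An eigensystem which factors through level `N` occurs at level `N`.** -/
theorem exists_eigenform_of_factor (a : ℕ → ℂ)
    (H : ∀ P : HA, MvPolynomial.aeval (heckeFun N S) P = 0 → MvPolynomial.aeval a P = 0) :
    ∃ f : CuspForm (Gamma0 N) 2, f.IsNormalizedEigenform ∧
      ∀ ℓ : ℕ, ℓ.Prime → ¬ ℓ ∣ N → ℓ ∉ S → qCoeff ⇑f ℓ = a ℓ := by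
  have := finite_range N S
  have := free_range N S
  have : FiniteDimensional ℂ (CuspForm (Gamma0 N) 2) := S49.finiteDimensional_cuspForm
  -- the character of the image of `ℤ[X_ℓ]`
  have hsurj : Function.Surjective (ev N S).rangeRestrict.toRingHom :=
    (ev N S).rangeRestrict_surjective
  let χ : (ev N S).range →+* ℂ :=
    RingHom.liftOfSurjective (ev N S).rangeRestrict.toRingHom hsurj
      ⟨(MvPolynomial.aeval a : HA →ₐ[ℤ] ℂ).toRingHom, by
        intro P hP
        rw [RingHom.mem_ker] at hP ⊢
        exact H P (congrArg Subtype.val hP)⟩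
  have hχ : ∀ P : HA, χ ((ev N S).rangeRestrict P) = MvPolynomial.aeval a P := by
    intro P
    exact RingHom.liftOfRightInverse_comp_apply _ _ _ _ P
  obtain ⟨v₀, hv₀, hv₀e⟩ := exists_eigenvector_of_ringHom (act N S)
    (linearIndependent_act N S _ (Module.Free.chooseBasis ℤ (ev N S).range).linearIndependent) χ
  -- the eigenspace
  let W : Submodule ℂ (CuspForm (Gamma0 N) 2) :=
    { carrier := {v | ∀ t, act N S t v = χ t • v}
      zero_mem' := fun t => by simp
      add_mem' := fun {x y} hx hy t => by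
        rw [map_add, hx t, hy t, smul_add]
      smul_mem' := fun c x hx t => by
        rw [map_smul, hx t, smul_comm] }
  have hW : W ≠ ⊥ := by
    intro h
    have : v₀ ∈ W := hv₀e
    rw [h, Submodule.mem_bot] at this
    exact hv₀ this
  have hle : heckeAlgebra N 2 (↑S : Set ℕ) ≤ heckeAlgebra N 2 ∅ :=
    heckeAlgebra_mono (Set.empty_subset _)
  have hstable : ∀ s : heckeAlgebra N 2 ∅, ∀ w ∈ W,
      (heckeAlgebra N 2 ∅).val.toRingHom s w ∈ W := by
    intro s w hw t
    have hcomm : act N S t * (s : Module.End ℂ (CuspForm (Gamma0 N) 2)) =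
        (s : Module.End ℂ (CuspForm (Gamma0 N) 2)) * act N S t := by
      have := mul_comm (⟨act N S t, hle (t : heckeAlgebra N 2 (↑S : Set ℕ)).2⟩ :
        heckeAlgebra N 2 ∅) s
      exact congrArg Subtype.val this
    have h1 := congrArg (fun F => F w) hcomm
    simp only [Module.End.mul_apply] at h1
    show act N S t ((s : Module.End ℂ (CuspForm (Gamma0 N) 2)) w) = _
    rw [h1, hw t, map_smul]
    rfl
  obtain ⟨v, χ₀, hvW, hv0, hv⟩ :=
    S49.exists_common_eigenvector (heckeAlgebra N 2 ∅).val.toRingHom W hW hstable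
  obtain ⟨f, hf, hfℓ⟩ := S49.exists_normalizedEigenform_of_eigenvector v hv0 χ₀ hv
  refine ⟨f, hf, fun ℓ hℓ hℓN hℓS => ?_⟩
  rw [hfℓ ℓ hℓ hℓN]
  have hℓS' : ℓ ∉ (↑S : Set ℕ) := fun h => hℓS (Finset.mem_coe.mp h)
  have h1 := hv (heckeAlgebra.T hℓ hℓN (Set.notMem_empty ℓ))
  have h2 := hvW ((ev N S).rangeRestrict (MvPolynomial.X ℓ))
  rw [hχ, MvPolynomial.aeval_X] at h2
  have h3 : act N S ((ev N S).rangeRestrict (MvPolynomial.X ℓ)) = heckeTLin 2 hℓ hℓN := by
    rw [act_apply]
    show ((ev N S (MvPolynomial.X ℓ) : heckeAlgebra N 2 (↑S : Set ℕ)) :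
      Module.End ℂ (CuspForm (Gamma0 N) 2)) = _
    rw [MvPolynomial.aeval_X, heckeFun_eq hℓ hℓN hℓS']
    rfl
  rw [h3] at h2
  have h4 : χ₀ (heckeAlgebra.T hℓ hℓN (Set.notMem_empty ℓ)) • v = a ℓ • v := by
    rw [← h1, ← h2]
    rfl
  exact smul_left_injective ℂ hv0 h4

end Fermat.Agent.Lib.NewKill
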